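/-
Program C (S55), package C3 (local fields in the `PadicAlgCl q` model), leaf V3 `LeafInv`
(helper24): the normalised local invariant `inv q L : H²(Gal(L/F), Lˣ) →+ ℚ/ℤ` satisfies its
specification `IsInv`, is injective, and its image is the `[L:F]`-torsion of `ℚ/ℤ`.

CONDITIONAL on the leaf `Prop`s of the C3 spec (`LeafUnram`, `LeafFrob`, `LeafOrd`, `LeafH2Unram`,
`LeafH2Le`, `LeafInflInj`, `LeafInfRes`, `LeafResInflUnram`, `LeafCycSurj`, `LeafCycZero`,
`LeafCycAdd`, `LeafCycInf`), which enter as hypotheses.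

By-products (reusable):
* `exists_isInvUnr_of_frob`, `exists_isInvUnr` : the unramified invariant `g` with `IsInvUnr`
  exists, is unique, injective, with image the `m`-torsion;
* `isInvUnr_infl` : `g_n ∘ inflH2 = g_m` for `m ∣ n` in the unramified tower;
* `unramExt_le_of_dvd`, `resHom_trans`, `inflH2_trans`, `inflH2_trans_apply`, `isFrob_resHom`;
* `exists_unrEquiv` : `H²(F_n/F) ≃ H²(L/F)` (`n = [L:F]`) compatibly with the inflations;
* `nrm_algEquiv` (Galois automorphisms are isometries), `ord_mul`, `ord_pow`, `baseUnit_*`.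
-/
import Fermat.Agent.S55.H66.InvSpec

set_option autoImplicit false

noncomputable section

namespace Fermat.Agent.S55.H24

open IntermediateField CategoryTheory groupCohomology Fermat.Agent.S55.H66

variable {q : ℕ} [Fact q.Prime]

section BaseUnit

variable {F : Type} [Field F] [Algebra F (PadicAlgCl q)]
variable (L : IntermediateField F (PadicAlgCl q))

/-- The unit of `L` underlying an element of the Galois module `Lˣ`. -/
def toUnit (x : Rep.ofAlgebraAutOnUnits F L) : Lˣ := Additive.toMul (Rep.toAdditive x)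

theorem toUnit_baseUnit (a : Fˣ) :
    toUnit L (baseUnit L a) = Units.map (algebraMap F L : F →* L) a := rfl

theorem toUnit_add (x y : Rep.ofAlgebraAutOnUnits F L) :
    toUnit L (x + y) = toUnit L x * toUnit L y := rfl

theorem toUnit_injective : Function.Injective (toUnit (F := F) L) := fun _ _ h => h

theorem toUnit_rho (g : L ≃ₐ[F] L) (x : Rep.ofAlgebraAutOnUnits F L) :
    ((toUnit L ((Rep.ofAlgebraAutOnUnits F L).ρ g x) : Lˣ) : L) = g (toUnit L x : Lˣ) := rfl

theorem toUnit_sum {ι : Type} (s : Finset ι) (f : ι → Rep.ofAlgebraAutOnUnits F L) :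
    toUnit L (∑ i ∈ s, f i) = ∏ i ∈ s, toUnit L (f i) := by
  classical
  induction s using Finset.induction_on with
  | empty => simp; rfl
  | insert a s ha ih => rw [Finset.sum_insert ha, Finset.prod_insert ha, toUnit_add, ih]

theorem baseUnit_mul (a b : Fˣ) : baseUnit L (a * b) = baseUnit L a + baseUnit L b := by
  apply toUnit_injective
  rw [toUnit_add, toUnit_baseUnit, toUnit_baseUnit, toUnit_baseUnit, map_mul]

theorem baseUnit_one : baseUnit L (1 : Fˣ) = 0 := by
  apply toUnit_injective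
  rw [toUnit_baseUnit, map_one]
  rfl

theorem baseUnit_pow (a : Fˣ) (k : ℕ) : baseUnit L (a ^ k) = k • baseUnit L a := by
  induction k with
  | zero => rw [pow_zero, zero_smul, baseUnit_one]
  | succ k ih => rw [pow_succ, baseUnit_mul, ih, succ_nsmul]

theorem baseUnit_invariant (a : Fˣ) (g : L ≃ₐ[F] L) :
    (Rep.ofAlgebraAutOnUnits F L).ρ g (baseUnit L a) = baseUnit L a := by
  apply toUnit_injective
  apply Units.ext
  rw [toUnit_rho, toUnit_baseUnit]
  exact g.commutes _

theorem exists_baseUnit_of_invariant [FiniteDimensional F L] [IsGalois F L]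
    (x : Rep.ofAlgebraAutOnUnits F L)
    (hx : ∀ g : L ≃ₐ[F] L, (Rep.ofAlgebraAutOnUnits F L).ρ g x = x) :
    ∃ a : Fˣ, baseUnit L a = x := by
  have h1 : ((toUnit L x : Lˣ) : L) ∈ Set.range (algebraMap F L) := by
    rw [IsGalois.mem_range_algebraMap_iff_fixed]
    intro g
    have := congrArg (fun y => ((toUnit L y : Lˣ) : L)) (hx g)
    exact (toUnit_rho L g x).symm.trans this
  obtain ⟨a, ha⟩ := h1
  have ha0 : a ≠ 0 := by
    rintro rfl
    rw [map_zero] at ha
    exact (toUnit L x).ne_zero ha.symm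
  refine ⟨Units.mk0 a ha0, ?_⟩
  apply toUnit_injective
  apply Units.ext
  rw [toUnit_baseUnit]
  exact ha

end BaseUnit

section Isom

/-- Elements of `Ω` with the same minimal polynomial over `ℚ_q` have the same norm. -/
theorem norm_eq_of_minpoly_eq {x y : PadicAlgCl q} (h : minpoly ℚ_[q] x = minpoly ℚ_[q] y) :
    ‖x‖ = ‖y‖ := by
  rw [← PadicAlgCl.spectralNorm_eq, ← PadicAlgCl.spectralNorm_eq, spectralNorm, spectralNorm, h]

/-- Galois automorphisms are isometries. -/
theorem nrm_algEquiv {F : Type} [Field F] [Algebra ℚ_[q] F] [Algebra F (PadicAlgCl q)]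
    [IsScalarTower ℚ_[q] F (PadicAlgCl q)] (L : IntermediateField F (PadicAlgCl q))
    (σ : L ≃ₐ[F] L) (x : L) : nrm q (σ x) = nrm q x := by
  show ‖((σ x : L) : PadicAlgCl q)‖ = ‖(x : PadicAlgCl q)‖
  apply norm_eq_of_minpoly_eq
  have h1 : minpoly ℚ_[q] ((σ x : L) : PadicAlgCl q) = minpoly ℚ_[q] (σ x) :=
    minpoly.algHom_eq (L.val.restrictScalars ℚ_[q]) L.val.injective (σ x)
  have h2 : minpoly ℚ_[q] (x : PadicAlgCl q) = minpoly ℚ_[q] x :=
    minpoly.algHom_eq (L.val.restrictScalars ℚ_[q]) L.val.injective x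
  have h3 : minpoly ℚ_[q] (σ x) = minpoly ℚ_[q] x :=
    minpoly.algHom_eq ((σ : L →ₐ[F] L).restrictScalars ℚ_[q]) σ.injective x
  rw [h1, h2, h3]

end Isom

section Nrm

variable {F : Type} [Field F] [Algebra F (PadicAlgCl q)]

theorem nrm_mul (x y : F) : nrm q (x * y) = nrm q x * nrm q y := by
  simp [nrm]

theorem nrm_one : nrm q (1 : F) = 1 := by
  simp [nrm]

theorem nrm_ne_zero {x : F} (hx : x ≠ 0) : nrm q x ≠ 0 := by
  simpa [nrm] using hx

theorem nrm_pow (x : F) (k : ℕ) : nrm q (x ^ k) = nrm q x ^ k := by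
  simp [nrm]

theorem nrm_zpow (x : F) (k : ℤ) : nrm q (x ^ k) = nrm q x ^ k := by
  simp [nrm]

theorem nrm_prod {ι : Type} (s : Finset ι) (f : ι → F) :
    nrm q (∏ i ∈ s, f i) = ∏ i ∈ s, nrm q (f i) := by
  simp [nrm]

end Nrm

section Ord

variable {F : Type} [Field F] [Algebra ℚ_[q] F] [Algebra F (PadicAlgCl q)]
  [IsScalarTower ℚ_[q] F (PadicAlgCl q)] [FiniteDimensional ℚ_[q] F]

theorem ord_eq_of_nrm_eq (hOrd : LeafOrd q) {x : F} (hx : x ≠ 0) {k : ℤ}
    (h : nrm q x = unifNrm q F ^ k) : ord q x = k := by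
  obtain ⟨h0, h1, -, hpow⟩ := hOrd F
  have := hpow x hx
  rw [h] at this
  exact (zpow_right_injective₀ h0 h1.ne this).symm

theorem ord_mul (hOrd : LeafOrd q) {x y : F} (hx : x ≠ 0) (hy : y ≠ 0) :
    ord q (x * y) = ord q x + ord q y := by
  obtain ⟨h0, h1, -, hpow⟩ := hOrd F
  apply ord_eq_of_nrm_eq hOrd (mul_ne_zero hx hy)
  rw [nrm_mul, hpow x hx, hpow y hy, zpow_add₀ h0.ne']

theorem ord_one (hOrd : LeafOrd q) : ord q (1 : F) = 0 := by
  apply ord_eq_of_nrm_eq hOrd one_ne_zero
  rw [nrm_one, zpow_zero]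

theorem ord_pow (hOrd : LeafOrd q) {x : F} (hx : x ≠ 0) (k : ℕ) :
    ord q (x ^ k) = k * ord q x := by
  obtain ⟨h0, h1, -, hpow⟩ := hOrd F
  apply ord_eq_of_nrm_eq hOrd (pow_ne_zero k hx)
  rw [nrm_pow, hpow x hx, ← zpow_natCast, ← zpow_mul, mul_comm]

end Ord

section Unr

variable {F : Type} [Field F] [Algebra ℚ_[q] F] [Algebra F (PadicAlgCl q)]
  [IsScalarTower ℚ_[q] F (PadicAlgCl q)] [FiniteDimensional ℚ_[q] F]

/-- **The unramified invariant** of an unramified Galois extension `U/F` with a generating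
Frobenius: existence, uniqueness, injectivity and image. -/
theorem exists_isInvUnr_of_frob (hOrd : LeafOrd q) (hCY2 : LeafCycSurj) (hCY3 : LeafCycZero)
    (hCY4 : LeafCycAdd) (U : IntermediateField F (PadicAlgCl q)) [FiniteDimensional F U]
    [IsGalois F U] (hunr : IsUnram q F U) (φ : U ≃ₐ[F] U) (hφ : IsFrob q U φ)
    (hφuniq : ∀ ψ : U ≃ₐ[F] U, IsFrob q U ψ → ψ = φ)
    (hφgen : ∀ τ : U ≃ₐ[F] U, τ ∈ Subgroup.zpowers φ)
    (hH2card : Nat.card (groupCohomology.H2 (Rep.ofAlgebraAutOnUnits F U)) =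
      Module.finrank F U) :
    ∃ g : groupCohomology.H2 (Rep.ofAlgebraAutOnUnits F U) →+ QZ,
      IsInvUnr q U g ∧ Function.Injective g ∧
      (∀ z : QZ, (∃ y, g y = z) ↔ Module.finrank F U • z = 0) ∧
      ∀ g' : groupCohomology.H2 (Rep.ofAlgebraAutOnUnits F U) →+ QZ,
        IsInvUnr q U g' → g' = g := by
  classical
  obtain ⟨h0, h1, ⟨π, hπ⟩, hpow⟩ := hOrd F
  have hm : 0 < Module.finrank F U := Module.finrank_pos
  have hm0 : (Module.finrank F U : ℚ) ≠ 0 := by exact_mod_cast hm.ne'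
  -- the class map
  have hadd : ∀ a b : Fˣ, cycClass (Rep.ofAlgebraAutOnUnits F U) φ (baseUnit U (a * b)) =
      cycClass (Rep.ofAlgebraAutOnUnits F U) φ (baseUnit U a) +
        cycClass (Rep.ofAlgebraAutOnUnits F U) φ (baseUnit U b) := by
    intro a b
    rw [baseUnit_mul]
    exact hCY4 ℤ (U ≃ₐ[F] U) _ φ hφgen _ _ (baseUnit_invariant U a) (baseUnit_invariant U b)
  have hone : cycClass (Rep.ofAlgebraAutOnUnits F U) φ (baseUnit U 1) = 0 := by
    have := hadd 1 1
    rw [mul_one] at this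
    exact left_eq_add.mp this
  let θ : Additive Fˣ →+ H2 (Rep.ofAlgebraAutOnUnits F U) :=
    { toFun := fun a => cycClass (Rep.ofAlgebraAutOnUnits F U) φ (baseUnit U (Additive.toMul a))
      map_zero' := hone
      map_add' := fun a b => hadd _ _ }
  have hθ : ∀ a : Fˣ, θ (Additive.ofMul a) =
      cycClass (Rep.ofAlgebraAutOnUnits F U) φ (baseUnit U a) := fun a => rfl
  have hθsurj : Function.Surjective θ := by
    intro x
    obtain ⟨a, ha, rfl⟩ := hCY2 ℤ (U ≃ₐ[F] U) _ φ hφgen x
    obtain ⟨b, rfl⟩ := exists_baseUnit_of_invariant U a ha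
    exact ⟨Additive.ofMul b, rfl⟩
  -- the valuation map
  let ω : Additive Fˣ →+ QZ :=
    { toFun := fun a =>
        (((ord q ((Additive.toMul a : Fˣ) : F) : ℚ) / (Module.finrank F U : ℚ) : ℚ) : QZ)
      map_zero' := by
        show (((ord q ((1 : Fˣ) : F) : ℚ) / (Module.finrank F U : ℚ) : ℚ) : QZ) = 0
        rw [Units.val_one, ord_one hOrd]
        simp
      map_add' := fun a b => by
        show (((ord q ((Additive.toMul a * Additive.toMul b : Fˣ) : F) : ℚ) /
          (Module.finrank F U : ℚ) : ℚ) : QZ) = _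
        rw [Units.val_mul, ord_mul hOrd (Units.ne_zero _) (Units.ne_zero _)]
        push_cast
        rw [add_div]
        rfl }
  have hω : ∀ a : Fˣ, ω (Additive.ofMul a) =
      (((ord q (a : F) : ℚ) / (Module.finrank F U : ℚ) : ℚ) : QZ) := fun a => rfl
  have hcard : Nat.card (U ≃ₐ[F] U) = Module.finrank F U := IsGalois.card_aut_eq_finrank F U
  -- kernel
  have hker : θ.ker ≤ ω.ker := by
    intro a ha
    obtain ⟨a, rfl⟩ := Additive.ofMul.surjective a
    rw [AddMonoidHom.mem_ker, hθ] at ha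
    rw [AddMonoidHom.mem_ker, hω]
    letI : Fintype (U ≃ₐ[F] U) := Fintype.ofFinite _
    obtain ⟨b, hb⟩ := (hCY3 ℤ (U ≃ₐ[F] U) _ φ hφgen _ (baseUnit_invariant U a)).1 ha
    have h2 := congrArg (fun y => ((toUnit U y : Uˣ) : U)) hb
    simp only [toUnit_sum, toUnit_baseUnit, Units.coe_prod, toUnit_rho, Units.coe_map,
      MonoidHom.coe_coe] at h2
    obtain ⟨c, hc⟩ := hunr (toUnit U b : Uˣ)
    have hc0 : c ≠ 0 := by
      rintro rfl
      have : nrm q ((toUnit U b : Uˣ) : U) = 0 := by rw [hc]; simp [nrm]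
      exact nrm_ne_zero (Units.ne_zero _) this
    have h3 : nrm q (a : F) = nrm q c ^ Module.finrank F U := by
      have h4 : nrm q (algebraMap F U (a : F)) = nrm q (a : F) := rfl
      rw [← h4, ← h2, nrm_prod]
      simp only [nrm_algEquiv, Finset.prod_const, Finset.card_univ, hc]
      rw [← Nat.card_eq_fintype_card, hcard]
    have h5 : ord q (a : F) = ord q c * Module.finrank F U := by
      apply ord_eq_of_nrm_eq hOrd (Units.ne_zero _)
      rw [h3, hpow c hc0, zpow_mul, zpow_natCast]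
    rw [h5]
    push_cast
    rw [mul_div_cancel_right₀ _ hm0]
    exact (AddCircle.coe_eq_zero_iff (1 : ℚ)).2 ⟨ord q c, by simp⟩
  let g : H2 (Rep.ofAlgebraAutOnUnits F U) →+ QZ := θ.liftOfSurjective hθsurj ⟨ω, hker⟩
  have hgθ : ∀ a, g (θ a) = ω a := fun a =>
    AddMonoidHom.liftOfRightInverse_comp_apply θ _ _ ⟨ω, hker⟩ a
  have hπ0 : π ≠ 0 := by
    rintro rfl
    have : nrm q (0 : F) = 0 := by simp [nrm]
    rw [this] at hπ
    exact h0.ne hπ
  have hordπ : ∀ k : ℤ, ord q (((Units.mk0 π hπ0) ^ k : Fˣ) : F) = k := by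
    intro k
    apply ord_eq_of_nrm_eq hOrd (Units.ne_zero _)
    rw [Units.val_zpow_eq_zpow_val, Units.val_mk0, nrm_zpow, hπ]
  have hginv : IsInvUnr q U g := by
    intro ψ hψ a
    rw [hφuniq ψ hψ, ← hθ, hgθ, hω]
  have himage : ∀ z : QZ, (∃ y, g y = z) ↔ Module.finrank F U • z = 0 := by
    intro z
    constructor
    · rintro ⟨y, rfl⟩
      obtain ⟨a, rfl⟩ := hθsurj y
      obtain ⟨a, rfl⟩ := Additive.ofMul.surjective a
      rw [hgθ, hω, ← AddCircle.coe_nsmul, nsmul_eq_mul, mul_div_cancel₀ _ hm0]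
      exact (AddCircle.coe_eq_zero_iff (1 : ℚ)).2 ⟨ord q (a : F), by simp⟩
    · intro hz
      obtain ⟨r, rfl⟩ := QuotientAddGroup.mk_surjective z
      have hz' : ((Module.finrank F U • r : ℚ) : QZ) = 0 := hz
      obtain ⟨k, hk⟩ := (AddCircle.coe_eq_zero_iff (1 : ℚ)).1 hz'
      refine ⟨θ (Additive.ofMul ((Units.mk0 π hπ0) ^ k)), ?_⟩
      rw [hgθ, hω, hordπ]
      have : (k : ℚ) / (Module.finrank F U : ℚ) = r := by
        rw [div_eq_iff hm0]
        simpa [mul_comm] using hk
      rw [this]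
  have hfinite : Finite (groupCohomology.H2 (Rep.ofAlgebraAutOnUnits F U)) :=
    Nat.finite_of_card_ne_zero (by rw [hH2card]; exact hm.ne')
  have hginj : Function.Injective g := by
    haveI : Fact ((0 : ℚ) < 1) := ⟨zero_lt_one⟩
    have hsurj : Function.Surjective g.rangeRestrict := g.rangeRestrict_surjective
    haveI : Finite g.range := Finite.of_surjective _ hsurj
    have hle : Nat.card (groupCohomology.H2 (Rep.ofAlgebraAutOnUnits F U)) ≤ Nat.card g.range := by
      rw [hH2card]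
      let ι : Fin (Module.finrank F U) → g.range := fun k =>
        ⟨(((k : ℕ) : ℚ) / (Module.finrank F U : ℚ) : ℚ), by
          obtain ⟨y, hy⟩ := (himage (((k : ℕ) : ℚ) / (Module.finrank F U : ℚ) : ℚ)).2 (by
            rw [← AddCircle.coe_nsmul, nsmul_eq_mul, mul_div_cancel₀ _ hm0]
            exact (AddCircle.coe_eq_zero_iff (1 : ℚ)).2 ⟨(k : ℕ), by simp⟩)
          exact ⟨y, hy⟩⟩
      have hι : Function.Injective ι := by
        intro k k' hkk
        have h1 : ((((k : ℕ) : ℚ) / (Module.finrank F U : ℚ) : ℚ) : QZ) =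
            ((((k' : ℕ) : ℚ) / (Module.finrank F U : ℚ) : ℚ) : QZ) := congrArg Subtype.val hkk
        have hmpos : (0 : ℚ) < Module.finrank F U := by exact_mod_cast hm
        have hIco : ∀ j : Fin (Module.finrank F U),
            (((j : ℕ) : ℚ) / (Module.finrank F U : ℚ)) ∈ Set.Ico (0 : ℚ) (0 + 1) := by
          intro j
          refine ⟨by positivity, ?_⟩
          rw [zero_add, div_lt_one hmpos]
          exact_mod_cast j.2
        have h2 := (AddCircle.coe_eq_coe_iff_of_mem_Ico (hIco k) (hIco k')).1 h1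
        have h3 : ((k : ℕ) : ℚ) = ((k' : ℕ) : ℚ) := by
          field_simp at h2
          exact h2
        exact Fin.ext (by exact_mod_cast h3)
      simpa using Nat.card_le_card_of_injective ι hι
    have hbij := hsurj.bijective_of_nat_card_le hle
    intro x y hxy
    exact hbij.1 (Subtype.ext hxy)
  refine ⟨g, hginv, hginj, himage, ?_⟩
  intro g' hg'
  ext y
  obtain ⟨a, rfl⟩ := hθsurj y
  obtain ⟨a, rfl⟩ := Additive.ofMul.surjective a
  rw [hgθ, hω, hθ]
  exact hg' φ hφ a

/-- The unramified invariant of `unramExt q F m`. -/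
theorem exists_isInvUnr (hUnram : LeafUnram q) (hFrob : LeafFrob q) (hOrd : LeafOrd q)
    (hH2 : LeafH2Unram q) (hCY2 : LeafCycSurj) (hCY3 : LeafCycZero) (hCY4 : LeafCycAdd)
    (F : Type) [Field F] [Algebra ℚ_[q] F] [Algebra F (PadicAlgCl q)]
    [IsScalarTower ℚ_[q] F (PadicAlgCl q)] [FiniteDimensional ℚ_[q] F] (m : ℕ) (hm : 0 < m) :
    ∃ g : groupCohomology.H2 (Rep.ofAlgebraAutOnUnits F (unramExt q F m)) →+ QZ,
      IsInvUnr q (unramExt q F m) g ∧ Function.Injective g ∧
      (∀ z : QZ, (∃ y, g y = z) ↔ m • z = 0) ∧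
      ∀ g' : groupCohomology.H2 (Rep.ofAlgebraAutOnUnits F (unramExt q F m)) →+ QZ,
        IsInvUnr q (unramExt q F m) g' → g' = g := by
  obtain ⟨hfin, hrank, hgal, -, hunr⟩ := hUnram F m hm
  obtain ⟨φ, hφ, hφuniq, hφgen⟩ := hFrob F (unramExt q F m) hunr
  have := exists_isInvUnr_of_frob hOrd hCY2 hCY3 hCY4 (unramExt q F m) hunr φ hφ hφuniq hφgen
    (by rw [(hH2 F m hm).2, hrank])
  rwa [hrank] at this

end Unr

section Tower

variable {F : Type} [Field F] [Algebra F (PadicAlgCl q)]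

/-- `F_m ≤ F_n` when `m ∣ n`. -/
theorem unramExt_le_of_dvd {m n : ℕ} (h : m ∣ n) : unramExt q F m ≤ unramExt q F n := by
  obtain ⟨k, rfl⟩ := h
  apply IntermediateField.adjoin.mono
  intro ζ hζ
  have hζ' : ζ ^ (resCard q F ^ m - 1) = 1 := hζ
  show ζ ^ (resCard q F ^ (m * k) - 1) = 1
  have hd : resCard q F ^ m - 1 ∣ resCard q F ^ (m * k) - 1 := by
    have := Nat.sub_dvd_pow_sub_pow (resCard q F ^ m) 1 k
    rwa [one_pow, ← pow_mul] at this
  obtain ⟨c, hc⟩ := hd
  rw [hc, pow_mul, hζ', one_pow]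

variable {L E E' : IntermediateField F (PadicAlgCl q)}

theorem resHom_trans [Normal F L] [Normal F E] (h₁ : L ≤ E) (h₂ : E ≤ E') :
    resHom (h₁.trans h₂) = (resHom h₁).comp (resHom h₂) := by
  ext σ x
  rw [resHom_apply, MonoidHom.comp_apply, resHom_apply]
  have := resHom_apply h₂ σ (inclusion h₁ x)
  rw [this]
  rfl

theorem inflH2_trans [Normal F L] [Normal F E] (h₁ : L ≤ E) (h₂ : E ≤ E') :
    inflH2 (h₁.trans h₂) = inflH2 h₁ ≫ inflH2 h₂ := by
  unfold inflH2
  rw [← groupCohomology.map_comp]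
  exact groupCohomology.map_congr (resHom_trans h₁ h₂) (by
    ext x
    rfl) 2

theorem inflH2_trans_apply [Normal F L] [Normal F E] (h₁ : L ≤ E) (h₂ : E ≤ E')
    (x : groupCohomology.H2 (Rep.ofAlgebraAutOnUnits F L)) :
    (inflH2 h₂).hom ((inflH2 h₁).hom x) = (inflH2 (h₁.trans h₂)).hom x := by
  rw [inflH2_trans h₁ h₂]
  rfl

/-- The restriction of a Frobenius is a Frobenius. -/
theorem isFrob_resHom {L E : IntermediateField F (PadicAlgCl q)} [Normal F L] (h : L ≤ E)
    (φ : E ≃ₐ[F] E) (hφ : IsFrob q E φ) : IsFrob q L (resHom h φ) := by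
  intro x hx
  have := hφ (inclusion h x) hx
  have e1 : ((resHom h φ x - x ^ resCard q F : L) : PadicAlgCl q) =
      ((resHom h φ x : L) : PadicAlgCl q) - (x : PadicAlgCl q) ^ resCard q F := rfl
  have e2 : ((φ (inclusion h x) - inclusion h x ^ resCard q F : E) : PadicAlgCl q) =
      ((φ (inclusion h x) : E) : PadicAlgCl q) - (x : PadicAlgCl q) ^ resCard q F := rfl
  have e3 : nrm q (resHom h φ x - x ^ resCard q F) =
      nrm q (φ (inclusion h x) - inclusion h x ^ resCard q F) := by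
    show ‖((resHom h φ x - x ^ resCard q F : L) : PadicAlgCl q)‖ =
      ‖((φ (inclusion h x) - inclusion h x ^ resCard q F : E) : PadicAlgCl q)‖
    rw [e1, e2, resHom_apply]
  rw [e3]
  exact this

end Tower

section Compat

variable {F : Type} [Field F] [Algebra ℚ_[q] F] [Algebra F (PadicAlgCl q)]
  [IsScalarTower ℚ_[q] F (PadicAlgCl q)] [FiniteDimensional ℚ_[q] F]

/-- Inflation in the unramified tower is compatible with the unramified invariants. -/
theorem isInvUnr_infl (hUnram : LeafUnram q) (hFrob : LeafFrob q) (hOrd : LeafOrd q)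
    (hCY2 : LeafCycSurj) (hCY7 : LeafCycInf) {m n : ℕ} (hm : 0 < m) (hn : 0 < n) (hmn : m ∣ n)
    [Normal F (unramExt q F m)]
    (gm : groupCohomology.H2 (Rep.ofAlgebraAutOnUnits F (unramExt q F m)) →+ QZ)
    (gn : groupCohomology.H2 (Rep.ofAlgebraAutOnUnits F (unramExt q F n)) →+ QZ)
    (hgm : IsInvUnr q (unramExt q F m) gm) (hgn : IsInvUnr q (unramExt q F n) gn)
    (y : groupCohomology.H2 (Rep.ofAlgebraAutOnUnits F (unramExt q F m))) :
    gn ((inflH2 (unramExt_le_of_dvd (q := q) (F := F) hmn)).hom y) = gm y := by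
  obtain ⟨hfinm, hrankm, hgalm, -, hunrm⟩ := hUnram F m hm
  obtain ⟨hfinn, hrankn, hgaln, -, hunrn⟩ := hUnram F n hn
  obtain ⟨φn, hφn, -, hφngen⟩ := hFrob F (unramExt q F n) hunrn
  obtain ⟨φm, hφm, hφmuniq, hφmgen⟩ := hFrob F (unramExt q F m) hunrm
  have hres : resHom (unramExt_le_of_dvd (q := q) (F := F) hmn) φn = φm :=
    hφmuniq _ (isFrob_resHom _ φn hφn)
  obtain ⟨a, ha, rfl⟩ := hCY2 ℤ _ _ φm hφmgen y
  obtain ⟨b, rfl⟩ := exists_baseUnit_of_invariant _ a ha
  obtain ⟨d, rfl⟩ := hmn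
  have hd : 0 < d := Nat.pos_of_mul_pos_left hn
  have hordm : orderOf φm = m := by
    rw [orderOf_eq_card_of_forall_mem_zpowers hφmgen, IsGalois.card_aut_eq_finrank, hrankm]
  have hordn : orderOf φn = m * d := by
    rw [orderOf_eq_card_of_forall_mem_zpowers hφngen, IsGalois.card_aut_eq_finrank, hrankn]
  have key := hCY7 ℤ _ _ _ _ (resHom (unramExt_le_of_dvd (q := q) (F := F) (Dvd.intro d rfl)))
    (inflRep (unramExt_le_of_dvd (q := q) (F := F) (Dvd.intro d rfl))) φm φn d hφmgen hφngen hres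
    (by rw [hordm, hordn, mul_comm]) (baseUnit _ b) (baseUnit_invariant _ b)
  have h1 : (inflH2 (unramExt_le_of_dvd (q := q) (F := F) (Dvd.intro d rfl))).hom
      (cycClass (Rep.ofAlgebraAutOnUnits F (unramExt q F m)) φm (baseUnit _ b)) =
      cycClass (Rep.ofAlgebraAutOnUnits F (unramExt q F (m * d))) φn (baseUnit _ (b ^ d)) := by
    rw [baseUnit_pow]
    exact key
  rw [h1, hgn φn hφn, hgm φm hφm, hrankm, hrankn, Units.val_pow_eq_pow_val,
    ord_pow hOrd (Units.ne_zero _)]
  congr 1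
  have hm0 : (m : ℚ) ≠ 0 := by exact_mod_cast hm.ne'
  have hd0 : (d : ℚ) ≠ 0 := by exact_mod_cast hd.ne'
  push_cast
  field_simp

end Compat

section Main

variable {F : Type} [Field F] [Algebra ℚ_[q] F] [Algebra F (PadicAlgCl q)]
  [IsScalarTower ℚ_[q] F (PadicAlgCl q)] [FiniteDimensional ℚ_[q] F]

/-- Every class of a Galois extension `L/F` of degree `n` is unramified of degree `n`:
`H²(F_n/F) ≃ H²(L/F)`, compatibly with the inflations to `L ⊔ F_n`. -/
theorem exists_unrEquiv (hUnram : LeafUnram q) (hH2Unram : LeafH2Unram q) (hH2Le : LeafH2Le q)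
    (hInflInj : LeafInflInj q) (hInfRes : LeafInfRes q) (hResInfl : LeafResInflUnram q)
    (L : IntermediateField F (PadicAlgCl q)) [FiniteDimensional F L] [IsGalois F L]
    [Normal F (unramExt q F (Module.finrank F L))] :
    ∃ e : groupCohomology.H2 (Rep.ofAlgebraAutOnUnits F (unramExt q F (Module.finrank F L))) ≃+
        groupCohomology.H2 (Rep.ofAlgebraAutOnUnits F L),
      ∀ y, (inflH2 (le_sup_left : L ≤ L ⊔ unramExt q F (Module.finrank F L))).hom (e y) =
        (inflH2 (le_sup_right : unramExt q F (Module.finrank F L) ≤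
          L ⊔ unramExt q F (Module.finrank F L))).hom y := by
  classical
  have hn : 0 < Module.finrank F L := Module.finrank_pos
  obtain ⟨hfin, -, hgal, -, -⟩ := hUnram F (Module.finrank F L) hn
  haveI := hfin
  haveI := hgal
  obtain ⟨-, hcard⟩ := hH2Unram F (Module.finrank F L) hn
  obtain ⟨hBfin, hBle⟩ := hH2Le F L
  haveI := hBfin
  haveI : IsGalois F ↥(L ⊔ unramExt q F (Module.finrank F L)) := ⟨⟩
  let j₁ := (inflH2 (le_sup_right : unramExt q F (Module.finrank F L) ≤
        L ⊔ unramExt q F (Module.finrank F L))).hom.toAddMonoidHom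
  let j₂ := (inflH2 (le_sup_left : L ≤ L ⊔ unramExt q F (Module.finrank F L))).hom.toAddMonoidHom
  have hi₁ : Function.Injective j₁ :=
    hInflInj F (unramExt q F (Module.finrank F L)) (L ⊔ unramExt q F (Module.finrank F L))
      le_sup_right
  have hi₂ : Function.Injective j₂ :=
    hInflInj F L (L ⊔ unramExt q F (Module.finrank F L)) le_sup_left
  have hle : j₁.range ≤ j₂.range := by
    rintro _ ⟨y, rfl⟩
    obtain ⟨b, hb⟩ := hInfRes F L (L ⊔ unramExt q F (Module.finrank F L)) le_sup_left _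
      (hResInfl F L y)
    exact ⟨b, hb⟩
  let g := ((AddMonoidHom.ofInjective hi₂).symm.toAddMonoidHom.comp
    (AddSubgroup.inclusion hle)).comp (AddMonoidHom.ofInjective hi₁).toAddMonoidHom
  have hg : Function.Injective g :=
    ((AddMonoidHom.ofInjective hi₂).symm.injective.comp
      (AddSubgroup.inclusion_injective hle)).comp (AddMonoidHom.ofInjective hi₁).injective
  have hbij : Function.Bijective g :=
    hg.bijective_of_nat_card_le (by rw [hcard]; exact hBle)
  refine ⟨AddEquiv.ofBijective g hbij, fun y => ?_⟩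
  exact congrArg Subtype.val ((AddMonoidHom.ofInjective hi₂).apply_symm_apply
    (AddSubgroup.inclusion hle (AddMonoidHom.ofInjective hi₁ y)))

/-- **Leaf V3 of the C3 spec**: the local invariant satisfies its specification, is injective,
and its image is the `[L:F]`-torsion of `ℚ/ℤ`. -/
theorem leafInv (hUnram : LeafUnram q) (hFrob : LeafFrob q) (hOrd : LeafOrd q)
    (hH2Unram : LeafH2Unram q) (hH2Le : LeafH2Le q) (hInflInj : LeafInflInj q)
    (hInfRes : LeafInfRes q) (hResInfl : LeafResInflUnram q)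
    (hCY2 : LeafCycSurj) (hCY3 : LeafCycZero) (hCY4 : LeafCycAdd) (hCY7 : LeafCycInf) :
    LeafInv q := by
  intro F _ _ _ _ _ L _ _
  classical
  have hn : 0 < Module.finrank F L := Module.finrank_pos
  obtain ⟨hfin, -, hgal, -, -⟩ := hUnram F (Module.finrank F L) hn
  haveI := hfin
  haveI := hgal
  obtain ⟨e, he⟩ := exists_unrEquiv hUnram hH2Unram hH2Le hInflInj hInfRes hResInfl L
  obtain ⟨gn, hgn, hgninj, hgnim, -⟩ :=
    exists_isInvUnr hUnram hFrob hOrd hH2Unram hCY2 hCY3 hCY4 F (Module.finrank F L) hn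
  have he' : ∀ x, (inflH2 (le_sup_left : L ≤ L ⊔ unramExt q F (Module.finrank F L))).hom x =
      (inflH2 (le_sup_right : unramExt q F (Module.finrank F L) ≤
        L ⊔ unramExt q F (Module.finrank F L))).hom (e.symm x) := by
    intro x
    have := he (e.symm x)
    rwa [e.apply_symm_apply] at this
  let f : groupCohomology.H2 (Rep.ofAlgebraAutOnUnits F L) →+ QZ :=
    gn.comp e.symm.toAddMonoidHom
  have hf : IsInv q L f := by
    intro m _ g hm hg x y hxy
    have hN : 0 < m * Module.finrank F L := Nat.mul_pos hm hn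
    obtain ⟨hfinm, -, hgalm, -, -⟩ := hUnram F m hm
    obtain ⟨hfinN, -, hgalN, -, -⟩ := hUnram F (m * Module.finrank F L) hN
    haveI := hfinm
    haveI := hfinN
    haveI := hgalN
    haveI : IsGalois F ↥(L ⊔ unramExt q F (m * Module.finrank F L)) := ⟨⟩
    obtain ⟨gN, hgN, -, -, -⟩ :=
      exists_isInvUnr hUnram hFrob hOrd hH2Unram hCY2 hCY3 hCY4 F (m * Module.finrank F L) hN
    have hm' : unramExt q F m ≤ unramExt q F (m * Module.finrank F L) :=
      unramExt_le_of_dvd (Dvd.intro _ rfl)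
    have hn' : unramExt q F (Module.finrank F L) ≤ unramExt q F (m * Module.finrank F L) :=
      unramExt_le_of_dvd (Dvd.intro_left _ rfl)
    have e1 : (inflH2 (le_sup_left : L ≤ L ⊔ unramExt q F (m * Module.finrank F L))).hom x =
        (inflH2 (le_sup_right : unramExt q F (m * Module.finrank F L) ≤
          L ⊔ unramExt q F (m * Module.finrank F L))).hom ((inflH2 hm').hom y) := by
      rw [inflH2_trans_apply]
      have := congrArg (inflH2 (sup_le_sup_left hm' L)).hom hxy
      rw [inflH2_trans_apply, inflH2_trans_apply] at this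
      exact this
    have e2 : (inflH2 (le_sup_left : L ≤ L ⊔ unramExt q F (m * Module.finrank F L))).hom x =
        (inflH2 (le_sup_right : unramExt q F (m * Module.finrank F L) ≤
          L ⊔ unramExt q F (m * Module.finrank F L))).hom ((inflH2 hn').hom (e.symm x)) := by
      rw [inflH2_trans_apply]
      have := congrArg (inflH2 (sup_le_sup_left hn' L)).hom (he' x)
      rw [inflH2_trans_apply, inflH2_trans_apply] at this
      exact this
    have key : (inflH2 hm').hom y = (inflH2 hn').hom (e.symm x) :=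
      hInflInj F (unramExt q F (m * Module.finrank F L))
        (L ⊔ unramExt q F (m * Module.finrank F L)) le_sup_right (e1.symm.trans e2)
    show gn (e.symm x) = g y
    rw [← isInvUnr_infl hUnram hFrob hOrd hCY2 hCY7 hm hN (Dvd.intro _ rfl) g gN hg hgN y,
      ← isInvUnr_infl hUnram hFrob hOrd hCY2 hCY7 hn hN (Dvd.intro_left _ rfl) gn gN hgn hgN
        (e.symm x)]
    exact congrArg gN key.symm
  have huniq : ∀ f' : groupCohomology.H2 (Rep.ofAlgebraAutOnUnits F L) →+ QZ,
      IsInv q L f' → f' = f := by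
    intro f' hf'
    ext x
    exact hf' (Module.finrank F L) gn hn hgn x (e.symm x) (he' x)
  have hex : ∃ f, IsInv q L f := ⟨f, hf⟩
  have hinv : H66.inv q L = f := by
    apply huniq
    unfold H66.inv
    rw [dif_pos hex]
    exact hex.choose_spec
  rw [hinv]
  refine ⟨hf, hgninj.comp e.symm.injective, fun z => ?_⟩
  rw [← hgnim z]
  constructor
  · rintro ⟨x, rfl⟩
    exact ⟨e.symm x, rfl⟩
  · rintro ⟨y, rfl⟩
    refine ⟨e y, ?_⟩
    show gn (e.symm (e y)) = gn y
    rw [e.symm_apply_apply]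

end Main

end Fermat.Agent.S55.H24
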