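/-
Program C (S55), package C6 (first inequality), leaf (STRUCT) of helper50's `FirstIneqSpec.lean`
(helper24): the `S`-units of a Galois layer `N / k` in the embedding model are stable under
`Gal(N/k)`, the `S`-units of `k` are exactly the elements of `kˣ` that are `S`-units of `N`,
and the norm maps `S`-units of `N` to `S`-units of `k`.

All three follow from the description of `S`-units by embeddings
(`mem_sUnitsBase_iff`, `mem_sUnitsTop_iff`): `x` is an `S`-unit iff `‖τ x‖ = 1` for every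
embedding `τ` into `PadicAlgCl q` whose place (restricted to `k`) is not in `S`.
-/
import Fermat.Agent.S55.H50.FirstIneqSpec

set_option autoImplicit false

open NumberField

noncomputable section

namespace Fermat.Agent.S55.H24

open Fermat.Agent.S55.H8 Fermat.Agent.S55.H88 Fermat.Agent.S55.H50

universe u

attribute [local instance] Fermat.Agent.S55.H88.factOfPrimes

section Places

variable {K : Type u} [Field K]

/-- The automorphisms of `PadicAlgCl q` over `ℚ_q` are isometries. -/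
theorem norm_padicAlgEquiv (q : ℕ) [Fact q.Prime]
    (g : PadicAlgCl q ≃ₐ[ℚ_[q]] PadicAlgCl q) (y : PadicAlgCl q) : ‖g y‖ = ‖y‖ := by
  have h := nnnorm_padicAlgCl_algEquiv q g y
  exact congrArg NNReal.toReal h

/-- The norm at the chosen embedding of the place of `τ` is the norm at `τ`. -/
theorem norm_emb_placeOf (q : Nat.Primes) (τ : K →+* PadicAlgCl (q : ℕ)) (x : K) :
    ‖(placeOf (q : ℕ) τ).emb x‖ = ‖τ x‖ := by
  obtain ⟨g, hg⟩ : (placeSetoid (q : ℕ) K).r (placeOf (q : ℕ) τ).emb τ := Quotient.mk_out τ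
  have h := RingHom.congr_fun hg x
  rw [h]
  exact (norm_padicAlgEquiv (q : ℕ) g _).symm

theorem mem_finU_iff (w : FinPlace K) (x : Kˣ) :
    finLoc K w x ∈ finU K w ↔ ‖w.emb (x : K)‖ = 1 := Iff.rfl

theorem mem_finU_placeOf_iff (q : Nat.Primes) (τ : K →+* PadicAlgCl (q : ℕ)) (x : Kˣ) :
    finLoc K (⟨q, placeOf (q : ℕ) τ⟩ : FinPlace K) x ∈ finU K ⟨q, placeOf (q : ℕ) τ⟩ ↔
      ‖τ (x : K)‖ = 1 := by
  rw [mem_finU_iff]
  show ‖(placeOf (q : ℕ) τ).emb (x : K)‖ = 1 ↔ _
  rw [norm_emb_placeOf]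

theorem finPlace_eq_placeOf (w : FinPlace K) :
    w = ⟨w.1, placeOf (w.1 : ℕ) w.emb⟩ := by
  obtain ⟨q, P⟩ := w
  show (⟨q, P⟩ : FinPlace K) = ⟨q, Quotient.mk _ (Quotient.out P)⟩
  rw [Quotient.out_eq]

end Places

section SUnits

variable (k N : Type u) [Field k] [Field N] [Algebra k N]

/-- `S`-units of `k` by embeddings. -/
theorem mem_sUnitsBase_iff (S : Finset (FinPlace k)) (c : kˣ) :
    c ∈ sUnitsBase k S ↔ ∀ (q : Nat.Primes) (τ : k →+* PadicAlgCl (q : ℕ)),
      (⟨q, placeOf (q : ℕ) τ⟩ : FinPlace k) ∉ S → ‖τ (c : k)‖ = 1 := by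
  unfold sUnitsBase
  rw [mem_GS]
  constructor
  · intro h q τ hS
    exact (mem_finU_placeOf_iff q τ c).1 (h _ (fun hmem => hS (Finset.mem_coe.1 hmem)))
  · intro h v hv
    rw [mem_finU_iff]
    refine h v.1 v.emb ?_
    rw [← finPlace_eq_placeOf v]
    exact fun hmem => hv (Finset.mem_coe.2 hmem)

theorem finRestrict_placeOf (q : Nat.Primes) (τ : N →+* PadicAlgCl (q : ℕ)) :
    finRestrict k N (⟨q, placeOf (q : ℕ) τ⟩ : FinPlace N) =
      ⟨q, placeOf (q : ℕ) (τ.comp (algebraMap k N))⟩ := rfl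

/-- `S`-units of `N` by embeddings. -/
theorem mem_sUnitsTop_iff (S : Finset (FinPlace k)) (x : Nˣ) :
    x ∈ sUnitsTop k N S ↔ ∀ (q : Nat.Primes) (τ : N →+* PadicAlgCl (q : ℕ)),
      (⟨q, placeOf (q : ℕ) (τ.comp (algebraMap k N))⟩ : FinPlace k) ∉ S → ‖τ (x : N)‖ = 1 := by
  unfold sUnitsTop
  rw [mem_GS]
  constructor
  · intro h q τ hS
    refine (mem_finU_placeOf_iff q τ x).1 (h _ ?_)
    intro hmem
    apply hS
    have : finRestrict k N (⟨q, placeOf (q : ℕ) τ⟩ : FinPlace N) ∈ S := hmem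
    rwa [finRestrict_placeOf] at this
  · intro h w hw
    rw [mem_finU_iff]
    refine h w.1 w.emb ?_
    intro hmem
    apply hw
    show finRestrict k N w ∈ S
    rw [finPlace_eq_placeOf w, finRestrict_placeOf]
    exact hmem

end SUnits

/-- **Leaf (STRUCT) of C6.** -/
theorem sUnitStructStatement : SUnitStructStatement.{u} := by
  intro k N _ _ _ _ _ _ S
  haveI : FiniteDimensional k N := Module.Finite.of_restrictScalars_finite ℚ k N
  refine ⟨?_, ?_, ?_⟩
  · -- Galois stability
    intro σ x hx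
    rw [mem_sUnitsTop_iff] at hx ⊢
    intro q τ hS
    have h1 : (τ.comp ((σ : N ≃+* N) : N →+* N)).comp (algebraMap k N) =
        τ.comp (algebraMap k N) := RingHom.ext fun y => congrArg τ (σ.commutes y)
    have := hx q (τ.comp ((σ : N ≃+* N) : N →+* N)) (by rw [h1]; exact hS)
    exact this
  · -- base `S`-units
    intro c
    rw [mem_sUnitsBase_iff, mem_sUnitsTop_iff]
    constructor
    · intro h q τ hS
      exact h q (τ.comp (algebraMap k N)) hS
    · intro h q τ₀ hS
      obtain ⟨τ, rfl⟩ := exists_extend (q : ℕ) (K := N) τ₀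
      exact h q τ hS
  · -- norms
    intro x hx
    rw [mem_sUnitsBase_iff]
    rw [mem_sUnitsTop_iff] at hx
    intro q τ₀ hS
    obtain ⟨τ, rfl⟩ := exists_extend (q : ℕ) (K := N) τ₀
    show ‖τ (algebraMap k N (Algebra.norm k (x : N)))‖ = 1
    classical
    rw [Algebra.norm_eq_prod_automorphisms, map_prod, norm_prod]
    apply Finset.prod_eq_one
    intro σ _
    have h1 : (τ.comp ((σ : N ≃+* N) : N →+* N)).comp (algebraMap k N) =
        τ.comp (algebraMap k N) := RingHom.ext fun y => congrArg τ (σ.commutes y)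
    exact hx q (τ.comp ((σ : N ≃+* N) : N →+* N)) (by rw [h1]; exact hS)

end Fermat.Agent.S55.H24
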