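/-
Program C (S55), package C6 (first inequality), sub-leaf (CL-SPLIT) of helper50's
`FirstIneqSpec2.lean` (helper24).

`N = k(g^{1/p})` a Kummer layer.  For `S` containing the places below a class-number set `T` of
`N`, and a place `v ∉ S` of `k` at which `g` is a local `p`-th power: every `x ∈ F_vˣ` agrees up
to a unit with `c = N_{N/k}(b)`, where `b ∈ Nˣ` has the absolute value of `x` at ONE place `w₁`
of `N` above `v` and is a unit at all other places outside `T`.  Then `c` is a local norm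
everywhere (LOCNORM), a unit outside `S ∪ {v}`, and `|c|_v = |x|` because the `p` extensions of
`τ_v` to `N` lie in `p` different places (an element of the local Galois group fixing `τ_v k`
fixes `F_v`, which contains all the `p`-th roots of `τ_v g`).
-/
import Fermat.Agent.S55.H50.FirstIneqSpec2
import Fermat.Agent.S55.H50.LocNorm
import Fermat.Agent.S55.H83.EmbGlue
import Fermat.Agent.S55.H24.SUnitStruct

set_option autoImplicit false

open NumberField

noncomputable section

namespace Fermat.Agent.S55.H24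

open Fermat.Agent.S55.H8 Fermat.Agent.S55.H88 Fermat.Agent.S55.H50

universe u

attribute [local instance] Fermat.Agent.S55.H88.factOfPrimes

section Loc

variable {q : ℕ} [Fact q.Prime] {K : Type u} [Field K]

/-- Transport of the completion under the local Galois group. -/
theorem map_mem_locField (h : PadicAlgCl q ≃ₐ[ℚ_[q]] PadicAlgCl q) (τ : K →+* PadicAlgCl q)
    {z : PadicAlgCl q} (hz : z ∈ locField q τ) :
    h z ∈ locField q ((h : PadicAlgCl q →+* PadicAlgCl q).comp τ) := by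
  have hle : (locField q τ).map (h : PadicAlgCl q →ₐ[ℚ_[q]] PadicAlgCl q) ≤
      locField q ((h : PadicAlgCl q →+* PadicAlgCl q).comp τ) := by
    unfold locField
    rw [IntermediateField.adjoin_map]
    apply IntermediateField.adjoin.mono
    rintro _ ⟨_, ⟨x, rfl⟩, rfl⟩
    exact ⟨x, rfl⟩
  exact hle ⟨z, hz, rfl⟩

/-- The completion of a subfield is contained in the completion of the field. -/
theorem locField_comp_le {k : Type u} [Field k] [Algebra k K] (τ : K →+* PadicAlgCl q) :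
    locField q (τ.comp (algebraMap k K)) ≤ locField q τ := by
  apply IntermediateField.adjoin.mono
  rintro _ ⟨x, rfl⟩
  exact ⟨algebraMap k K x, rfl⟩

theorem map_mem_locField_self (τ : K →+* PadicAlgCl q) (x : K) : τ x ∈ locField q τ :=
  IntermediateField.subset_adjoin ℚ_[q] (Set.range τ) ⟨x, rfl⟩

end Loc

section Kummer

variable {k N : Type u} [Field k] [Field N] [Algebra k N]

/-- In a Kummer layer with `g` not a `p`-th power, only the identity fixes the root `α`. -/
theorem KummerLayer_eq_one_of_fix {p : ℕ} (hp : p.Prime) {g : kˣ} (hg : g ∉ pPow p kˣ)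
    (L : KummerLayer k N p g) (ρ : N ≃ₐ[k] N) (hρ : ρ L.α = L.α) : ρ = 1 := by
  haveI : IsGalois k N := L.isGalois
  haveI : FiniteDimensional k N :=
    Module.finite_of_finrank_pos (by rw [L.finrank_eq]; exact hp.pos)
  haveI : Fact p.Prime := ⟨hp⟩
  by_contra hne
  have hcard : Nat.card (N ≃ₐ[k] N) = p := by
    rw [IsGalois.card_aut_eq_finrank, L.finrank_eq]
  have htop : Subgroup.zpowers ρ = ⊤ := zpowers_eq_top_of_prime_card hcard hne
  have hall : ∀ τ : N ≃ₐ[k] N, τ L.α = L.α := by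
    intro τ
    have hle : Subgroup.zpowers ρ ≤ MulAction.stabilizer (N ≃ₐ[k] N) L.α := by
      rw [Subgroup.zpowers_le]
      exact hρ
    exact hle (by rw [htop]; exact Subgroup.mem_top τ)
  obtain ⟨a, ha⟩ := (IsGalois.mem_range_algebraMap_iff_fixed L.α).2 hall
  have hap : a ^ p = (g : k) := by
    apply (algebraMap k N).injective
    rw [map_pow, ha, L.root]
  have ha0 : a ≠ 0 := by
    rintro rfl
    rw [zero_pow hp.ne_zero] at hap
    exact g.ne_zero hap.symm
  exact hg ⟨Units.mk0 a ha0, Units.ext hap⟩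

end Kummer

section Global

variable {N : Type u} [Field N]

theorem norm_finLoc (w : FinPlace N) (b : Nˣ) :
    ‖(((finLoc N w b : finX N w) : w.field) : PadicAlgCl (w.1 : ℕ))‖ = ‖w.emb (b : N)‖ := rfl

theorem norm_finX_mul (w : FinPlace N) (a b : finX N w) :
    ‖(((a * b : finX N w) : w.field) : PadicAlgCl (w.1 : ℕ))‖ =
      ‖((a : w.field) : PadicAlgCl (w.1 : ℕ))‖ * ‖((b : w.field) : PadicAlgCl (w.1 : ℕ))‖ := by
  rw [Units.val_mul, MulMemClass.coe_mul, norm_mul]

theorem norm_finX_ne_zero (w : FinPlace N) (a : finX N w) :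
    ‖((a : w.field) : PadicAlgCl (w.1 : ℕ))‖ ≠ 0 := by
  rw [norm_ne_zero_iff]
  intro h0
  exact a.ne_zero (Subtype.ext h0)

theorem mem_finU_iff_norm (w : FinPlace N) (a : finX N w) :
    a ∈ finU N w ↔ ‖((a : w.field) : PadicAlgCl (w.1 : ℕ))‖ = 1 := Iff.rfl

/-- `x / c ∈ U_w` iff `x` and `c` have the same absolute value at `w`. -/
theorem div_mem_finU_iff (w : FinPlace N) (x : finX N w) (c : Nˣ) :
    x / finLoc N w c ∈ finU N w ↔
      ‖((x : w.field) : PadicAlgCl (w.1 : ℕ))‖ = ‖w.emb (c : N)‖ := by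
  have h1 : x = (x / finLoc N w c) * finLoc N w c := (div_mul_cancel x _).symm
  have h2 : ‖((x : w.field) : PadicAlgCl (w.1 : ℕ))‖ =
      ‖(((x / finLoc N w c : finX N w) : w.field) : PadicAlgCl (w.1 : ℕ))‖ *
        ‖w.emb (c : N)‖ := by
    conv_lhs => rw [h1]
    rw [norm_finX_mul, norm_finLoc]
  have h3 : ‖w.emb (c : N)‖ ≠ 0 := by
    rw [← norm_finLoc]
    exact norm_finX_ne_zero w _
  rw [mem_finU_iff_norm, h2]
  constructor
  · intro h
    rw [h, one_mul]
  · intro h
    exact mul_right_cancel₀ h3 (h.trans (one_mul _).symm)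

/-- From a class-number set `T`: an idele concentrated at one place `w₁ ∉ T` is, up to units
outside `T`, principal. -/
theorem exists_global_of_classNumber (T : Finset (FinPlace N))
    (hCN : resProd (finU N) ≤ principal (finLoc N) ⊔ JS (finU N) (T : Set (FinPlace N)))
    (w₁ : FinPlace N) (hw₁ : w₁ ∉ T) (y : finX N w₁) :
    ∃ b : Nˣ, (∀ w, w ∉ T → w ≠ w₁ → finLoc N w b ∈ finU N w) ∧
      y / finLoc N w₁ b ∈ finU N w₁ := by
  classical
  let Y : ∀ w : FinPlace N, finX N w := Function.update 1 w₁ y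
  have hY : Y ∈ resProd (finU N) := by
    rw [mem_resProd]
    refine (Set.finite_singleton w₁).subset ?_
    intro w hw
    by_contra hne
    apply hw
    have : Y w = 1 := Function.update_of_ne hne _ _
    rw [this]
    exact (finU N w).one_mem
  obtain ⟨a, ⟨b, rfl⟩, u, hu, hau⟩ := Subgroup.mem_sup.1 (hCN hY)
  rw [mem_JS] at hu
  have hbu : ∀ w : FinPlace N, finLoc N w b * u w = Y w := fun w => congrFun hau w
  refine ⟨b, ?_, ?_⟩
  · intro w hwT hne
    have h1 := hbu w
    rw [show Y w = 1 from Function.update_of_ne hne _ _] at h1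
    rw [eq_inv_of_mul_eq_one_left h1]
    exact (finU N w).inv_mem (hu w (fun hmem => hwT (Finset.mem_coe.1 hmem)))
  · have h1 := hbu w₁
    rw [show Y w₁ = y from Function.update_self _ _ _] at h1
    rw [← h1, mul_div_cancel_left]
    exact hu w₁ (fun hmem => hw₁ (Finset.mem_coe.1 hmem))

/-- Embedding form: a global element with prescribed absolute value at the place of `τ₀`,
unit at all other places outside `T`. -/
theorem exists_global_norm_eq (T : Finset (FinPlace N))
    (hCN : resProd (finU N) ≤ principal (finLoc N) ⊔ JS (finU N) (T : Set (FinPlace N)))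
    (q : Nat.Primes) (τ₀ : N →+* PadicAlgCl (q : ℕ))
    (hw₁ : (⟨q, placeOf (q : ℕ) τ₀⟩ : FinPlace N) ∉ T) (z : PadicAlgCl (q : ℕ))
    (hz : z ∈ locField (q : ℕ) τ₀) (hz0 : z ≠ 0) :
    ∃ b : Nˣ, ‖τ₀ (b : N)‖ = ‖z‖ ∧
      ∀ (q' : Nat.Primes) (τ' : N →+* PadicAlgCl (q' : ℕ)),
        (⟨q', placeOf (q' : ℕ) τ'⟩ : FinPlace N) ∉ T →
        (⟨q', placeOf (q' : ℕ) τ'⟩ : FinPlace N) ≠ ⟨q, placeOf (q : ℕ) τ₀⟩ →
        ‖τ' (b : N)‖ = 1 := by
  -- the chosen embedding of the place is a conjugate of `τ₀`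
  obtain ⟨h, hh⟩ : (placeSetoid (q : ℕ) N).r τ₀ (placeOf (q : ℕ) τ₀).emb :=
    (placeSetoid (q : ℕ) N).symm (Quotient.mk_out τ₀)
  have hmem : h z ∈ locField (q : ℕ) (placeOf (q : ℕ) τ₀).emb := by
    rw [hh]
    exact map_mem_locField h τ₀ hz
  have hne : (⟨h z, hmem⟩ : locField (q : ℕ) (placeOf (q : ℕ) τ₀).emb) ≠ 0 := by
    intro h0
    have h1 : h z = 0 := congrArg Subtype.val h0
    rw [map_eq_zero_iff h h.injective] at h1
    exact hz0 h1
  obtain ⟨b, hb1, hb2⟩ := exists_global_of_classNumber T hCN ⟨q, placeOf (q : ℕ) τ₀⟩ hw₁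
    (Units.mk0 ⟨h z, hmem⟩ hne)
  refine ⟨b, ?_, ?_⟩
  · rw [div_mem_finU_iff] at hb2
    have h3 : ‖(placeOf (q : ℕ) τ₀).emb (b : N)‖ = ‖τ₀ (b : N)‖ := norm_emb_placeOf q τ₀ _
    have h4 : ‖h z‖ = ‖(placeOf (q : ℕ) τ₀).emb (b : N)‖ := hb2
    rw [← h3, ← h4]
    exact norm_padicAlgEquiv (q : ℕ) h z
  · intro q' τ' hT hne'
    exact (mem_finU_placeOf_iff q' τ' b).1 (hb1 _ hT hne')

end Global

/-- **Sub-leaf (CL-SPLIT) of C6.** -/
theorem classSplitStatement : ClassSplitStatement.{u} := by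
  classical
  intro k N _ _ _ _ _ p hp hp2 ζ hζ g hg L
  haveI : IsGalois k N := L.isGalois
  haveI : FiniteDimensional k N :=
    Module.finite_of_finrank_pos (by rw [L.finrank_eq]; exact hp.pos)
  haveI : NeZero p := ⟨hp.ne_zero⟩
  obtain ⟨T, hT⟩ := Fermat.Agent.S55.H83.classNumberStatement N
  have hCN := hT T (Finset.Subset.refl T)
  refine ⟨T.image (finRestrict k N), fun S hS v hvS hpow x => ?_⟩
  -- places of `N` over places outside `S` are outside `T`
  have hT' : ∀ w : FinPlace N, finRestrict k N w ∉ S → w ∉ T := by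
    intro w hw hwT
    exact hw (hS (Finset.mem_image_of_mem _ hwT))
  -- an extension of `τ_v`
  obtain ⟨τ₀, hτ₀⟩ := exists_extend (v.1 : ℕ) (K := N) v.emb
  have hw₁v : finRestrict k N (⟨v.1, placeOf (v.1 : ℕ) τ₀⟩ : FinPlace N) = v := by
    rw [finRestrict_placeOf, hτ₀]
    exact (finPlace_eq_placeOf v).symm
  have hw₁T : (⟨v.1, placeOf (v.1 : ℕ) τ₀⟩ : FinPlace N) ∉ T :=
    hT' _ (by rw [hw₁v]; exact hvS)
  have hxmem : ((x : v.field) : PadicAlgCl (v.1 : ℕ)) ∈ locField (v.1 : ℕ) τ₀ := by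
    have h1 : ((x : v.field) : PadicAlgCl (v.1 : ℕ)) ∈ locField (v.1 : ℕ) v.emb := (x : v.field).2
    rw [← hτ₀] at h1
    exact locField_comp_le τ₀ h1
  have hx0 : ((x : v.field) : PadicAlgCl (v.1 : ℕ)) ≠ 0 := fun h0 => x.ne_zero (Subtype.ext h0)
  obtain ⟨b, hb2, hb1⟩ := exists_global_norm_eq T hCN v.1 τ₀ hw₁T _ hxmem hx0
  -- restriction of `τ ∘ σ`
  have hcomp : ∀ (q' : Nat.Primes) (τ' : N →+* PadicAlgCl (q' : ℕ)) (σ : N ≃ₐ[k] N),
      (τ'.comp ((σ : N ≃+* N) : N →+* N)).comp (algebraMap k N) = τ'.comp (algebraMap k N) :=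
    fun q' τ' σ => RingHom.ext fun z => congrArg τ' (σ.commutes z)
  refine ⟨Units.map (Algebra.norm k : N →* k) b, ?_, ?_, ?_⟩
  · -- local norm at `S`
    intro v' _
    exact globalNormLocalStatement k N p hp g hg L b v'
  · -- unit outside `S ∪ {v}`
    intro v' hv'S hv'v
    rw [mem_finU_iff]
    obtain ⟨τ'', hτ''⟩ := exists_extend (v'.1 : ℕ) (K := N) v'.emb
    have e1 : v'.emb (((Units.map (Algebra.norm k : N →* k) b : kˣ)) : k) =
        τ'' (algebraMap k N (Algebra.norm k (b : N))) := by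
      rw [← hτ'']
      rfl
    rw [e1, Algebra.norm_eq_prod_automorphisms, map_prod, norm_prod]
    apply Finset.prod_eq_one
    intro σ _
    have hres : finRestrict k N (⟨v'.1, placeOf (v'.1 : ℕ)
        (τ''.comp ((σ : N ≃+* N) : N →+* N))⟩ : FinPlace N) = v' := by
      rw [finRestrict_placeOf, hcomp, hτ'']
      exact (finPlace_eq_placeOf v').symm
    refine hb1 v'.1 (τ''.comp ((σ : N ≃+* N) : N →+* N)) (hT' _ (by rw [hres]; exact hv'S)) ?_
    intro heq
    apply hv'v
    rw [← hres, heq, hw₁v]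
  · -- absolute value at `v`
    rw [div_mem_finU_iff]
    have e1 : v.emb (((Units.map (Algebra.norm k : N →* k) b : kˣ)) : k) =
        τ₀ (algebraMap k N (Algebra.norm k (b : N))) := by
      rw [← hτ₀]
      rfl
    rw [e1, Algebra.norm_eq_prod_automorphisms, map_prod, norm_prod,
      Finset.prod_eq_single (1 : N ≃ₐ[k] N)]
    · exact hb2.symm
    · intro σ _ hσ
      have hres : finRestrict k N (⟨v.1, placeOf (v.1 : ℕ)
          (τ₀.comp ((σ : N ≃+* N) : N →+* N))⟩ : FinPlace N) = v := by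
        rw [finRestrict_placeOf, hcomp, hτ₀]
        exact (finPlace_eq_placeOf v).symm
      refine hb1 v.1 (τ₀.comp ((σ : N ≃+* N) : N →+* N)) (hT' _ (by rw [hres]; exact hvS)) ?_
      intro heq
      apply hσ
      -- the two embeddings are conjugate under the local Galois group
      have hq : placeOf (v.1 : ℕ) (τ₀.comp ((σ : N ≃+* N) : N →+* N)) = placeOf (v.1 : ℕ) τ₀ :=
        eq_of_heq (Sigma.mk.inj heq).2
      obtain ⟨h', hh'⟩ : (placeSetoid (v.1 : ℕ) N).r
          (τ₀.comp ((σ : N ≃+* N) : N →+* N)) τ₀ := Quotient.exact hq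
      -- `h'` fixes the completion `F_v`
      have hfix : ∀ z ∈ locField (v.1 : ℕ) v.emb, h' z = z := by
        intro z hz
        have hc : (h' : PadicAlgCl (v.1 : ℕ) →+* PadicAlgCl (v.1 : ℕ)).comp v.emb =
            ((1 : PadicAlgCl (v.1 : ℕ) ≃ₐ[ℚ_[(v.1 : ℕ)]] PadicAlgCl (v.1 : ℕ)) :
              PadicAlgCl (v.1 : ℕ) →+* PadicAlgCl (v.1 : ℕ)).comp v.emb := by
          refine RingHom.ext fun t => ?_
          have h1 : τ₀ (algebraMap k N t) = h' (τ₀ (σ (algebraMap k N t))) :=
            RingHom.congr_fun hh' (algebraMap k N t)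
          rw [σ.commutes] at h1
          have h2 : v.emb t = τ₀ (algebraMap k N t) := by
            rw [← hτ₀]
            rfl
          show h' (v.emb t) = v.emb t
          rw [h2]
          exact h1.symm
        exact eqOn_locField (v.1 : ℕ) v.emb h' 1 hc hz
      -- the conjugates of `α` go into `F_v`
      obtain ⟨c₀, hc₀⟩ := hpow
      have hc₀' : ((c₀ : v.field) : PadicAlgCl (v.1 : ℕ)) ^ p = v.emb (g : k) := by
        have := congrArg (fun t : v.field => (t : PadicAlgCl (v.1 : ℕ))) hc₀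
        exact this
      have hc₀0 : ((c₀ : v.field) : PadicAlgCl (v.1 : ℕ)) ≠ 0 := by
        intro h0
        rw [h0, zero_pow hp.ne_zero] at hc₀'
        exact g.ne_zero (v.emb.injective (by rw [map_zero]; exact hc₀'.symm))
      have hζΩ : IsPrimitiveRoot (v.emb ζ) p := hζ.map_of_injective v.emb.injective
      have hα : ∀ ρ : N ≃ₐ[k] N, τ₀ (ρ L.α) ∈ locField (v.1 : ℕ) v.emb := by
        intro ρ
        have h1 : τ₀ (ρ L.α) ^ p = v.emb (g : k) := by
          rw [← map_pow, ← map_pow, L.root, ρ.commutes, ← hτ₀]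
          rfl
        have h2 : (τ₀ (ρ L.α) / ((c₀ : v.field) : PadicAlgCl (v.1 : ℕ))) ^ p = 1 := by
          rw [div_pow, h1, hc₀', div_self]
          rw [← hc₀']
          exact pow_ne_zero p hc₀0
        obtain ⟨i, -, hi⟩ := hζΩ.eq_pow_of_pow_eq_one h2
        have h3 : τ₀ (ρ L.α) = v.emb ζ ^ i * ((c₀ : v.field) : PadicAlgCl (v.1 : ℕ)) := by
          rw [hi, div_mul_cancel₀ _ hc₀0]
        rw [h3]
        exact (locField (v.1 : ℕ) v.emb).mul_mem
          (pow_mem (map_mem_locField_self v.emb ζ) i) c₀.2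
      have h1 : τ₀ L.α = h' (τ₀ (σ L.α)) := RingHom.congr_fun hh' L.α
      rw [hfix _ (hα σ)] at h1
      exact KummerLayer_eq_one_of_fix hp hg L σ (τ₀.injective h1).symm
    · intro h
      exact absurd (Finset.mem_univ _) h

end Fermat.Agent.S55.H24
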