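/-
Program C (S55), package C3 (helper24): `LeafInvUnrExists` (requested by the designer) and
`LeafInv`, with every leaf that is already proved on main discharged.  What remains as
hypotheses are exactly the leaves still in progress: `LeafUnram`, `LeafFrob`, `LeafUnitNorm`
(and `LeafNormIndex` for `LeafInv`).
-/
import Fermat.Agent.S55.H24.Inv
import Fermat.Agent.S55.H66.InflComp
import Fermat.Agent.S55.H66.LocalBridge
import Fermat.Agent.S55.H10.CycSurj
import Fermat.Agent.S55.H80.CycInf
import Fermat.Agent.S55.H93.InfResLocal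
import Fermat.Agent.S55.H35.H2Unram
import Fermat.Agent.S55.H40.H2Le
import Fermat.Agent.S55.H9.ResInflUnram
import Fermat.Agent.S55.H39.FundId

set_option autoImplicit false

noncomputable section

namespace Fermat.Agent.S55.H24

open Fermat.Agent.S55 Fermat.Agent.S55.H66

variable {q : ℕ} [Fact q.Prime]

/-- `LeafInvUnrExists` (Step A of the construction of `inv`) from the leaf `Prop`s. -/
theorem leafInvUnrExists_of (hUnram : LeafUnram q) (hFrob : LeafFrob q) (hOrd : LeafOrd q)
    (hH2 : LeafH2Unram q) (hCY2 : LeafCycSurj) (hCY3 : LeafCycZero) (hCY4 : LeafCycAdd) :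
    LeafInvUnrExists q := by
  intro F _ _ _ _ _ n _ hn
  obtain ⟨g, hg, hinj, -, -⟩ := exists_isInvUnr hUnram hFrob hOrd hH2 hCY2 hCY3 hCY4 F n hn
  exact ⟨g, hg, hinj⟩

/-- `LeafInvUnrExists` from the three leaves still in progress. -/
theorem leafInvUnrExists (hUnram : LeafUnram q) (hFrob : LeafFrob q)
    (hUnitNorm : LeafUnitNorm q) : LeafInvUnrExists q :=
  leafInvUnrExists_of hUnram hFrob (leafOrd q)
    (H35.leafH2Unram q (leafUnif q) hUnram hUnitNorm)
    H10.leafCycSurj H10.leafCycZero H10.leafCycAdd

/-- `LeafInv` from the four leaves still in progress. -/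
theorem leafInv_of_open (hUnram : LeafUnram q) (hFrob : LeafFrob q)
    (hUnitNorm : LeafUnitNorm q) (hNI : LeafNormIndex q) : LeafInv q :=
  leafInv hUnram hFrob (leafOrd q) (H35.leafH2Unram q (leafUnif q) hUnram hUnitNorm)
    (H40.leafH2Le q hNI) (H93.leafInflInj q) (H93.leafInfRes q)
    (H9.leafResInflUnram q hUnram
      (H39.leafNormCompositum (leafUnif q) hUnram hUnitNorm)
      H10.leafCycSurj H80.leafCycRes H10.leafCycZero)
    H10.leafCycSurj H10.leafCycZero H10.leafCycAdd H80.leafCycInf

end Fermat.Agent.S55.H24
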